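import Fermat.Agent.SwA.Vals
import Fermat.Agent.SW2.Final
import Fermat.Agent.Sw3.ApTwo

/-!
# The switch at the prime two for curves with good supersingular reduction and `a₂ = ± 2`

The mod 5 representation of such a curve is, at `2`, that of a Tate curve; the switched curve has
multiplicative reduction at `2`.
-/

set_option autoImplicit false

namespace Fermat.Agent.SwA

open WeierstrassCurve Fermat.Agent.S52 Fermat.Agent.S52A Fermat.Agent.SW2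

theorem switch_ss_aux (W : WeierstrassCurve ℤ)
    (hΔ : W.Δ ≠ 0) (hW : W.IsSemistableModel) (h2 : ¬ (2 : ℤ) ∣ W.Δ) {a b : ℤ}
    (ha : W.c₄ = 16 * a) (hb : W.c₆ = 8 * b) (hao : Odd a) (hb4 : b % 4 = 1)
    (B : ℕ) (hB : B ≠ 0) :
    ∃ W' : WeierstrassCurve ℤ, W'.Δ ≠ 0 ∧ (2 : ℤ) ∣ W'.Δ ∧
      padicValInt 2 W'.Δ = 5 ∧
      (∀ q : ℕ, q.Prime → q ∣ B → (q : ℤ) ∣ W'.Δ → (q : ℤ) ∣ W.Δ ∨ q = 2) ∧
      W'.IsSemistableModel ∧
      ∀ ℓ : ℕ, ℓ.Prime → W.IsGoodPrimeFor ℓ → W'.IsGoodPrimeFor ℓ → ℓ ≠ 5 →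
        (5 : ℤ) ∣ (W'.apOfModel ℓ - W.apOfModel ℓ) := by
  have hrel1728 : 1728 * W.Δ = W.c₄ ^ 3 - W.c₆ ^ 2 := W.c_relation
  have hrel : 27 * W.Δ = 64 * a ^ 3 - b ^ 2 := by
    rw [ha, hb] at hrel1728
    have : (64 : ℤ) * (27 * W.Δ) = 64 * (64 * a ^ 3 - b ^ 2) := by linear_combination hrel1728
    exact mul_left_cancel₀ (by norm_num) this
  -- the odd part
  obtain ⟨k, N, hNodd, hN0, hN⟩ := exists_odd_part (z := 1728 * (30 * W.Δ) * B) (by
    exact mul_ne_zero (mul_ne_zero (by norm_num) (mul_ne_zero (by norm_num) hΔ))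
      (by exact_mod_cast hB))
  have hN81 : (81 : ℤ) ∣ N := by
    have h1 : (81 : ℤ) ∣ 2 ^ k * N := by
      rw [← hN]
      exact ⟨640 * W.Δ * B, by ring⟩
    have h3 : IsCoprime (81 : ℤ) (2 ^ k) := by
      have : IsCoprime (81 : ℤ) 2 := ⟨1, -40, by norm_num⟩
      exact this.pow_right
    exact h3.dvd_of_dvd_mul_left h1
  have hNdvd : ∀ q : ℕ, q.Prime → q ≠ 2 → (q : ℤ) ∣ 30 * W.Δ * B → (q : ℤ) ∣ N := by
    intro q hq hq2 hd
    apply prime_dvd_of_dvd_mul_two_pow hq hq2 (k := k)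
    rw [← hN]
    have : 1728 * (30 * W.Δ) * (B : ℤ) = 1728 * (30 * W.Δ * B) := by ring
    rw [this]
    exact hd.mul_left _
  obtain ⟨⟨d, hd, hdo⟩, hc4o, hc6m⟩ := vals hao hb4 hNodd
  obtain ⟨c4, hc4⟩ : ∃ c, c = G4 a b N := ⟨_, rfl⟩
  obtain ⟨c6, hc6⟩ : ∃ c, c = G6 a b N := ⟨_, rfl⟩
  rw [← hc4] at hc4o
  rw [← hc6] at hc6m
  have hrel' : c4 ^ 3 - c6 ^ 2 = 1728 * (W.Δ * 2 ^ 5 * d ^ 5) := by
    rw [hc4, hc6, rel hd]
    linear_combination (-(2 ^ 11 * d ^ 5)) * hrel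
  -- the invariant `b₂`
  obtain ⟨x, hx⟩ : ∃ x, x = 2 ^ 20 * W.b₂ + N ^ 2 * (1 - 2 ^ 20 * W.b₂) := ⟨_, rfl⟩
  have hx1 : x % 4 = 1 := by
    obtain ⟨n, hn⟩ := hNodd
    have : x = 4 * (2 ^ 18 * W.b₂ + (n ^ 2 + n) * (1 - 2 ^ 20 * W.b₂) - 2 ^ 18 * W.b₂) + 1 := by
      rw [hx, hn]; ring
    omega
  have hxN : N ∣ x - 2 ^ 20 * W.b₂ := ⟨N * (1 - 2 ^ 20 * W.b₂), by rw [hx]; ring⟩
  have hc4N : N ∣ c4 - 2 ^ 40 * W.c₄ := by
    have := dvd_G4 a b N
    rw [hc4, ha]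
    have e : G4 a b N - 2 ^ 40 * (16 * a) = G4 a b N - 2 ^ 44 * a := by ring
    rwa [e]
  have hc6N : N ∣ c6 - 2 ^ 60 * W.c₆ := by
    have := dvd_G6 a b N
    rw [hc6, hb]
    have e : G6 a b N - 2 ^ 60 * (8 * b) = G6 a b N - 2 ^ 63 * b := by ring
    rwa [e]
  have hb4N : N ∣ (x ^ 2 - c4) - 2 ^ 40 * (24 * W.b₄) := by
    obtain ⟨z1, hz1⟩ := hxN
    obtain ⟨z2, hz2⟩ := hc4N
    refine ⟨z1 * (x + 2 ^ 20 * W.b₂) - z2, ?_⟩
    have h1 : W.c₄ = W.b₂ ^ 2 - 24 * W.b₄ := rfl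
    rw [h1] at hz2
    linear_combination (x + 2 ^ 20 * W.b₂) * hz1 - hz2
  have hb6N : N ∣ (x ^ 3 - 3 * x * c4 - 2 * c6) - 2 ^ 60 * (432 * W.b₆) := by
    obtain ⟨z1, hz1⟩ := hxN
    obtain ⟨z2, hz2⟩ := hc4N
    obtain ⟨z3, hz3⟩ := hc6N
    refine ⟨z1 * (x ^ 2 + x * (2 ^ 20 * W.b₂) + (2 ^ 20 * W.b₂) ^ 2) - 3 * z1 * c4 -
      3 * (2 ^ 20 * W.b₂) * z2 - 2 * z3, ?_⟩
    have h1 : W.c₄ = W.b₂ ^ 2 - 24 * W.b₄ := rfl
    have h3 : W.c₆ = -W.b₂ ^ 3 + 36 * W.b₂ * W.b₄ - 216 * W.b₆ := rfl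
    rw [h1] at hz2
    rw [h3] at hz3
    linear_combination (x ^ 2 + x * (2 ^ 20 * W.b₂) + (2 ^ 20 * W.b₂) ^ 2 - 3 * c4) * hz1 -
      3 * (2 ^ 20 * W.b₂) * hz2 - 2 * hz3
  -- the model
  obtain ⟨W', hW'2, hW'4, hW'6, hW'c4, hW'c6⟩ := exists_model hrel' hx1 hc6m
    (Int.odd_iff.1 hc4o) (by
      have h3 : (3 : ℤ) ∣ (x ^ 2 - c4) - 2 ^ 40 * (24 * W.b₄) :=
        (Dvd.dvd.trans (by norm_num) hN81).trans hb4N
      have h4 : (3 : ℤ) ∣ 2 ^ 40 * (24 * W.b₄) := ⟨2 ^ 40 * (8 * W.b₄), by ring⟩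
      exact (dvd_sub_left h4).1 h3) (by
      have h3 : (27 : ℤ) ∣ (x ^ 3 - 3 * x * c4 - 2 * c6) - 2 ^ 60 * (432 * W.b₆) :=
        (Dvd.dvd.trans (by norm_num) hN81).trans hb6N
      have h4 : (27 : ℤ) ∣ 2 ^ 60 * (432 * W.b₆) := ⟨2 ^ 60 * (16 * W.b₆), by ring⟩
      exact (dvd_sub_left h4).1 h3)
  have hΔ' : W'.Δ = W.Δ * 2 ^ 5 * d ^ 5 := by
    have h1 : 1728 * W'.Δ = W'.c₄ ^ 3 - W'.c₆ ^ 2 := W'.c_relation
    rw [hW'c4, hW'c6, hrel'] at h1
    exact mul_left_cancel₀ (by norm_num) h1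
  have hd0 : d ≠ 0 := by
    rintro rfl
    exact (Int.not_odd_zero hdo).elim
  have hΔ'0 : W'.Δ ≠ 0 := by
    rw [hΔ']
    exact mul_ne_zero (mul_ne_zero hΔ (by norm_num)) (pow_ne_zero 5 hd0)
  -- primes dividing `N`
  have hNd : ∀ p : ℕ, p.Prime → p ≠ 2 → (p : ℤ) ∣ N → ¬ (p : ℤ) ∣ d := by
    intro p hp hp2 hpN hpd
    have h1 : (p : ℤ) ∣ GD a b N - 2 ^ 24 := hpN.trans (dvd_GD a b N)
    have h3 : (p : ℤ) ∣ GD a b N := by rw [hd]; exact hpd.mul_left _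
    have h4 : (p : ℤ) ∣ 2 ^ 24 := (dvd_sub_right h3).1 h1
    have h5 : (p : ℤ) ∣ 1 :=
      prime_dvd_of_dvd_mul_two_pow hp hp2 (k := 24) (by rwa [mul_one])
    exact hp.one_lt.ne' (by exact_mod_cast Int.eq_one_of_dvd_one (by positivity) h5)
  have hNΔ : ∀ p : ℕ, p.Prime → p ≠ 2 → (p : ℤ) ∣ N → (p : ℤ) ∣ W'.Δ → (p : ℤ) ∣ W.Δ := by
    intro p hp hp2 hpN hd'
    rw [hΔ'] at hd'
    rcases (Nat.prime_iff_prime_int.mp hp).dvd_or_dvd hd' with h1 | h1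
    · rw [mul_comm] at h1
      exact prime_dvd_of_dvd_mul_two_pow hp hp2 h1
    · exact absurd ((Nat.prime_iff_prime_int.mp hp).dvd_of_dvd_pow h1) (hNd p hp hp2 hpN)
  -- primes not dividing `30 Δ B`
  have hbig : ∀ p : ℕ, p.Prime → ¬ (p : ℤ) ∣ 30 * W.Δ * B →
      (¬ p ∣ 30) ∧ (W.c₄ : ZMod p) ^ 3 ≠ (W.c₆ : ZMod p) ^ 2 := by
    intro p hp hpn
    have h30 : ¬ p ∣ 30 := by
      intro h
      have : (p : ℤ) ∣ 30 := by exact_mod_cast h
      exact hpn ((this.mul_right _).mul_right _)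
    refine ⟨h30, ?_⟩
    intro h
    have h1 : ((W.c₄ ^ 3 - W.c₆ ^ 2 : ℤ) : ZMod p) = 0 := by push_cast; rw [h, sub_self]
    rw [← hrel1728, ZMod.intCast_zmod_eq_zero_iff_dvd] at h1
    rcases (Nat.prime_iff_prime_int.mp hp).dvd_or_dvd h1 with h2 | h2
    · have h3 : p ∣ 1728 := by exact_mod_cast h2
      have h4 : (1728 : ℕ) = 2 ^ 6 * 3 ^ 3 := by norm_num
      rw [h4] at h3
      rcases (hp.dvd_mul).mp h3 with h5 | h5
      · exact h30 ((hp.dvd_of_dvd_pow h5).trans (by norm_num))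
      · exact h30 ((hp.dvd_of_dvd_pow h5).trans (by norm_num))
    · exact hpn ((h2.mul_left _).mul_right _)
  -- the parameter modulo an odd prime
  have hmod : ∀ p : ℕ, [Fact p.Prime] → (2 : ZMod p) ≠ 0 → ∃ t : ZMod p,
      (2 ^ 10) ^ 4 * C4p (W.c₄ : ZMod p) (W.c₆ : ZMod p) t = (c4 : ZMod p) ∧
      (2 ^ 10) ^ 6 * C6p (W.c₄ : ZMod p) (W.c₆ : ZMod p) t = (c6 : ZMod p) ∧
      2 ^ 24 * Dp (W.c₄ : ZMod p) (W.c₆ : ZMod p) t = 2 * (d : ZMod p) := by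
    intro p _ h2'
    have h16 : (16 : ZMod p) ≠ 0 := by
      have : (16 : ZMod p) = 2 ^ 4 := by norm_num
      rw [this]; exact pow_ne_zero 4 h2'
    refine ⟨(N : ZMod p) / 16, ?_, ?_, ?_⟩
    · have e := idG4 (a : ZMod p) (b : ZMod p) ((N : ZMod p) / 16)
      rw [mul_div_cancel₀ _ h16] at e
      have e' := map_G4 (Int.castRingHom (ZMod p)) a b N
      simp only [eq_intCast] at e'
      rw [hc4, e', ← e, ha, hb]
      push_cast
      ring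
    · have e := idG6 (a : ZMod p) (b : ZMod p) ((N : ZMod p) / 16)
      rw [mul_div_cancel₀ _ h16] at e
      have e' := map_G6 (Int.castRingHom (ZMod p)) a b N
      simp only [eq_intCast] at e'
      rw [hc6, e', ← e, ha, hb]
      push_cast
      ring
    · have e := idGD (a : ZMod p) (b : ZMod p) ((N : ZMod p) / 16)
      rw [mul_div_cancel₀ _ h16] at e
      have e' := map_GD (Int.castRingHom (ZMod p)) a b N
      simp only [eq_intCast] at e'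
      rw [hd] at e'
      push_cast at e'
      rw [e', ← e, ha, hb]
      push_cast
      ring
  refine ⟨W', hΔ'0, ?_, ?_, ?_, ?_, ?_⟩
  · rw [hΔ']
    exact ⟨W.Δ * 2 ^ 4 * d ^ 5, by ring⟩
  · have hf : Fact (Nat.Prime 2) := ⟨Nat.prime_two⟩
    rw [hΔ', padicValInt.mul (mul_ne_zero hΔ (by norm_num)) (pow_ne_zero 5 hd0),
      padicValInt.mul hΔ (by norm_num)]
    have h1 : padicValInt 2 ((2 : ℤ) ^ 5) = 5 := by
      have : ((2 : ℤ) ^ 5) = ((2 ^ 5 : ℕ) : ℤ) := by norm_num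
      rw [this, padicValInt.of_nat, padicValNat.prime_pow]
    have h3 : padicValInt 2 (d ^ 5) = 0 := by
      apply padicValInt.eq_zero_of_not_dvd
      intro h
      have h4 : (2 : ℤ) ∣ d := Int.prime_two.dvd_of_dvd_pow (by exact_mod_cast h)
      exact (Int.not_even_iff_odd.2 hdo) (even_iff_two_dvd.2 h4)
    have h5 : padicValInt 2 W.Δ = 0 :=
      padicValInt.eq_zero_of_not_dvd (by exact_mod_cast h2)
    rw [h1, h3, h5]
  · intro q hq hqB hd'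
    by_cases hq2 : q = 2
    · exact Or.inr hq2
    · refine Or.inl (hNΔ q hq hq2 (hNdvd q hq hq2 ?_) hd')
      have : (q : ℤ) ∣ B := by exact_mod_cast hqB
      exact this.mul_left _
  · -- semistability
    intro p hp hd'
    rw [hW'c4]
    by_cases hp2 : p = 2
    · rw [hp2]
      intro h
      exact (Int.not_even_iff_odd.2 hc4o) (even_iff_two_dvd.2 (by exact_mod_cast h))
    by_cases h30 : (p : ℤ) ∣ 30 * W.Δ * B
    · have hpN := hNdvd p hp hp2 h30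
      have h1 := hNΔ p hp hp2 hpN hd'
      intro h3
      apply hW p hp h1
      have h4 : (p : ℤ) ∣ c4 - 2 ^ 40 * W.c₄ := hpN.trans hc4N
      exact prime_dvd_of_dvd_mul_two_pow hp hp2 ((dvd_sub_right h3).1 h4)
    · obtain ⟨h1, h3⟩ := hbig p hp h30
      have hpD : ¬ (p : ℤ) ∣ W.Δ := fun h => h30 ((h.mul_left _).mul_right _)
      have h4 : (p : ℤ) ∣ d := by
        rw [hΔ'] at hd'
        rcases (Nat.prime_iff_prime_int.mp hp).dvd_or_dvd hd' with h5 | h5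
        · rw [mul_comm] at h5
          exact absurd (prime_dvd_of_dvd_mul_two_pow hp hp2 h5) hpD
        · exact (Nat.prime_iff_prime_int.mp hp).dvd_of_dvd_pow h5
      have : Fact p.Prime := ⟨hp⟩
      have h2' : (2 : ZMod p) ≠ 0 := by
        intro h
        have h6 : ((2 : ℕ) : ZMod p) = 0 := by exact_mod_cast h
        exact hp2 ((Nat.prime_dvd_prime_iff_eq hp Nat.prime_two).mp
          ((ZMod.natCast_eq_zero_iff _ _).mp h6))
      intro h5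
      obtain ⟨t, ht4, -, htD⟩ := hmod p h2'
      rw [← ZMod.intCast_zmod_eq_zero_iff_dvd] at h4 h5
      rw [h4, mul_zero] at htD
      rw [h5] at ht4
      refine Fermat.Agent.S52.I2 (K := ZMod p) (a := (W.c₄ : ZMod p)) (b := (W.c₆ : ZMod p))
        (t := t) ?_ h3 ?_ ?_
      · intro h7
        apply h1
        have h8 : ((30 : ℕ) : ZMod p) = 0 := by exact_mod_cast h7
        exact (ZMod.natCast_eq_zero_iff _ _).mp h8
      · exact (mul_eq_zero.1 htD).resolve_left (pow_ne_zero _ h2')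
      · exact (mul_eq_zero.1 ht4).resolve_left (pow_ne_zero _ (pow_ne_zero _ h2'))
  · intro ℓ hℓ hg hg' h5
    have : Fact ℓ.Prime := ⟨hℓ⟩
    have hℓ2 : ℓ ≠ 2 := by
      rintro rfl
      apply hg'
      rw [hΔ']
      exact ⟨W.Δ * 2 ^ 4 * d ^ 5, by push_cast; ring⟩
    have h2' : (2 : ZMod ℓ) ≠ 0 := by
      intro h
      have h6 : ((2 : ℕ) : ZMod ℓ) = 0 := by exact_mod_cast h
      exact hℓ2 ((Nat.prime_dvd_prime_iff_eq hℓ Nat.prime_two).mp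
        ((ZMod.natCast_eq_zero_iff _ _).mp h6))
    have hΔℓ : (W.reductionMod ℓ).Δ ≠ 0 := by
      rw [reductionMod, map_Δ, eq_intCast, Ne, ZMod.intCast_zmod_eq_zero_iff_dvd]
      exact hg
    have hΔℓ' : (W'.reductionMod ℓ).Δ ≠ 0 := by
      rw [reductionMod, map_Δ, eq_intCast, Ne, ZMod.intCast_zmod_eq_zero_iff_dvd]
      exact hg'
    by_cases h30 : (ℓ : ℤ) ∣ 30 * W.Δ * B
    · have hpN := hNdvd ℓ hℓ hℓ2 h30
      have key : ∀ z : ℤ, (N ∣ 432 * z) → (ℓ : ℤ) ∣ z := by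
        intro z hz
        by_cases hℓ3 : ℓ = 3
        · rw [hℓ3]
          obtain ⟨z', hz'⟩ := hN81.trans hz
          exact_mod_cast prime_dvd_of_dvd_mul_two_pow Nat.prime_three (by norm_num) (k := 4)
            (show ((3 : ℕ) : ℤ) ∣ 2 ^ 4 * z from ⟨z', by push_cast; linarith⟩)
        · have h6 : (ℓ : ℤ) ∣ 2 ^ 4 * (27 * z) := by
            have : 2 ^ 4 * (27 * z) = 432 * z := by ring
            rw [this]; exact hpN.trans hz
          have h7 := prime_dvd_of_dvd_mul_two_pow hℓ hℓ2 h6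
          rcases (Nat.prime_iff_prime_int.mp hℓ).dvd_or_dvd h7 with h8 | h8
          · exfalso
            have h9 : (ℓ : ℤ) ∣ 3 ^ 3 := by norm_num; exact h8
            have h10 := (Nat.prime_iff_prime_int.mp hℓ).dvd_of_dvd_pow h9
            have h11 : ℓ ∣ 3 := by exact_mod_cast h10
            exact hℓ3 ((Nat.prime_dvd_prime_iff_eq hℓ Nat.prime_three).mp h11)
          · exact h8
      have k2 : (ℓ : ℤ) ∣ W'.b₂ - 2 ^ 20 * W.b₂ := by
        rw [hW'2]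
        exact hpN.trans hxN
      have k4 : (ℓ : ℤ) ∣ W'.b₄ - 2 ^ 40 * W.b₄ := by
        apply key
        rw [← hW'4] at hb4N
        obtain ⟨z, hz⟩ := hb4N
        exact ⟨18 * z, by linear_combination 18 * hz⟩
      have k6 : (ℓ : ℤ) ∣ W'.b₆ - 2 ^ 60 * W.b₆ := by
        apply key
        rw [← hW'6] at hb6N
        obtain ⟨z, hz⟩ := hb6N
        exact ⟨z, by linear_combination hz⟩
      have hcard : Nat.card (W'.reductionMod ℓ).toAffine.Point =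
          Nat.card (W.reductionMod ℓ).toAffine.Point := by
        rw [← ZMod.intCast_zmod_eq_zero_iff_dvd] at k2 k4 k6
        push_cast at k2 k4 k6
        refine card_eq_of_scale (W'.reductionMod ℓ) (W.reductionMod ℓ) h2' (u := 2 ^ 10)
          (pow_ne_zero 10 h2') hΔℓ' hΔℓ ?_ ?_ ?_
        · simp only [reductionMod, map_b₂, eq_intCast]
          linear_combination k2
        · simp only [reductionMod, map_b₄, eq_intCast]
          linear_combination k4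
        · simp only [reductionMod, map_b₆, eq_intCast]
          linear_combination k6
      have hfin : W'.apOfModel ℓ - W.apOfModel ℓ = 0 := by
        simp only [WeierstrassCurve.apOfModel, WeierstrassCurve.traceOfFrobenius,
          WeierstrassCurve.card, hcard]
        ring
      rw [hfin]
      exact dvd_zero _
    · obtain ⟨h1, h3⟩ := hbig ℓ hℓ h30
      obtain ⟨t, ht4, ht6, htD⟩ := hmod ℓ h2'
      have hDp : Dp (W.c₄ : ZMod ℓ) (W.c₆ : ZMod ℓ) t ≠ 0 := by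
        intro h0
        rw [h0, mul_zero] at htD
        have h6 : (d : ZMod ℓ) = 0 := (mul_eq_zero.1 htD.symm).resolve_left h2'
        rw [ZMod.intCast_zmod_eq_zero_iff_dvd] at h6
        apply hg'
        rw [hΔ']
        exact (h6.trans (dvd_pow_self _ (by norm_num))).mul_left _
      have h4 := Fermat.Agent.S52.I3 (l := ℓ) (a := (W.c₄ : ZMod ℓ)) (b := (W.c₆ : ZMod ℓ))
        (t := t) h1 h3 hDp
      have h3' : (3 : ZMod ℓ) ≠ 0 := by
        intro h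
        have h6 : ((3 : ℕ) : ZMod ℓ) = 0 := by exact_mod_cast h
        exact h1 (((ZMod.natCast_eq_zero_iff _ _).mp h6).trans (by norm_num))
      have hc1 : Nat.card (W.reductionMod ℓ).toAffine.Point
          = Nat.card (shortE (W.c₄ : ZMod ℓ) (W.c₆ : ZMod ℓ)).toAffine.Point := by
        rw [card_short (W.reductionMod ℓ) h2' h3' hΔℓ]
        simp only [reductionMod, map_c₄, map_c₆, eq_intCast]
      have h6' : (6 : ZMod ℓ) ≠ 0 := by
        have : (6 : ZMod ℓ) = 2 * 3 := by norm_num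
        rw [this]; exact mul_ne_zero h2' h3'
      have hc2 : Nat.card (W'.reductionMod ℓ).toAffine.Point
          = Nat.card (shortE (C4p (W.c₄ : ZMod ℓ) (W.c₆ : ZMod ℓ) t)
              (C6p (W.c₄ : ZMod ℓ) (W.c₆ : ZMod ℓ) t)).toAffine.Point := by
        rw [card_short (W'.reductionMod ℓ) h2' h3' hΔℓ']
        have s4 : (W'.reductionMod ℓ).c₄ = (c4 : ZMod ℓ) := by
          simp only [reductionMod, map_c₄, eq_intCast, hW'c4]
        have s6 : (W'.reductionMod ℓ).c₆ = (c6 : ZMod ℓ) := by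
          simp only [reductionMod, map_c₆, eq_intCast, hW'c6]
        have d1 : (shortE (W'.reductionMod ℓ).c₄ (W'.reductionMod ℓ).c₆).Δ ≠ 0 := by
          rw [Fermat.Agent.S52A.shortE_Δ]
          exact mul_ne_zero (pow_ne_zero _ h6') hΔℓ'
        have hsc : ∀ A B A' B' u : ZMod ℓ, A = u ^ 4 * A' → B = u ^ 6 * B' →
            (shortE A B).Δ = u ^ 12 * (shortE A' B').Δ := by
          rintro _ _ A' B' u rfl rfl
          simp only [shortE, WeierstrassCurve.Δ, WeierstrassCurve.b₂, WeierstrassCurve.b₄,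
            WeierstrassCurve.b₆, WeierstrassCurve.b₈]
          ring
        rw [s4, s6] at d1 ⊢
        refine card_shortE_scale h2' (u := 2 ^ 10) (pow_ne_zero 10 h2') ht4.symm ht6.symm d1 ?_
        intro h0
        apply d1
        rw [hsc _ _ _ _ _ ht4.symm ht6.symm, h0, mul_zero]
      have hfin : W'.apOfModel ℓ - W.apOfModel ℓ
          = (Nat.card (shortE (W.c₄ : ZMod ℓ) (W.c₆ : ZMod ℓ)).toAffine.Point : ℤ)
            - (Nat.card (shortE (C4p (W.c₄ : ZMod ℓ) (W.c₆ : ZMod ℓ) t)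
              (C6p (W.c₄ : ZMod ℓ) (W.c₆ : ZMod ℓ) t)).toAffine.Point : ℤ) := by
        simp only [WeierstrassCurve.apOfModel, WeierstrassCurve.traceOfFrobenius,
          WeierstrassCurve.card, hc1, hc2]
        ring
      rw [hfin]
      exact h4

/-- The 3-5 switch at a prime `2` of good reduction with `a₂ = ± 2`: the switched curve has
multiplicative reduction at `2`, with `v₂(Δ') = 5`. -/
theorem switch_ss_two_val (W : WeierstrassCurve ℤ) (hΔ : W.Δ ≠ 0) (hW : W.IsSemistableModel)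
    (h2 : ¬ (2 : ℤ) ∣ W.Δ) (ha : W.apOfModel 2 = 2 ∨ W.apOfModel 2 = -2)
    (B : ℕ) (hB : B ≠ 0) :
    ∃ W' : WeierstrassCurve ℤ, W'.Δ ≠ 0 ∧ (2 : ℤ) ∣ W'.Δ ∧
      padicValInt 2 W'.Δ = 5 ∧
      (∀ q : ℕ, q.Prime → q ∣ B → (q : ℤ) ∣ W'.Δ → (q : ℤ) ∣ W.Δ ∨ q = 2) ∧
      W'.IsSemistableModel ∧
      ∀ ℓ : ℕ, ℓ.Prime → W.IsGoodPrimeFor ℓ → W'.IsGoodPrimeFor ℓ → ℓ ≠ 5 →
        (5 : ℤ) ∣ (W'.apOfModel ℓ - W.apOfModel ℓ) := by
  rcases Fermat.Agent.Sw3.ap_two_cases W h2 with ⟨-, -, h⟩ | ⟨-, -, h⟩ |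
    ⟨a, b, h4, h6, hb, ⟨-, h⟩ | ⟨hao, -, -⟩ | ⟨hao, -, -⟩⟩
  · omega
  · omega
  · omega
  · exact switch_ss_aux W hΔ hW h2 h4 h6 hao hb B hB
  · exact switch_ss_aux W hΔ hW h2 h4 h6 hao hb B hB

/-- The 3-5 switch at a prime `2` of good reduction with `a₂ = ± 2`. -/
theorem switch_ss_two (W : WeierstrassCurve ℤ) (hΔ : W.Δ ≠ 0) (hW : W.IsSemistableModel)
    (h2 : ¬ (2 : ℤ) ∣ W.Δ) (ha : W.apOfModel 2 = 2 ∨ W.apOfModel 2 = -2)
    (B : ℕ) (hB : B ≠ 0) :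
    ∃ W' : WeierstrassCurve ℤ, W'.Δ ≠ 0 ∧ (2 : ℤ) ∣ W'.Δ ∧
      (∀ q : ℕ, q.Prime → q ∣ B → (q : ℤ) ∣ W'.Δ → (q : ℤ) ∣ W.Δ ∨ q = 2) ∧
      W'.IsSemistableModel ∧
      ∀ ℓ : ℕ, ℓ.Prime → W.IsGoodPrimeFor ℓ → W'.IsGoodPrimeFor ℓ → ℓ ≠ 5 →
        (5 : ℤ) ∣ (W'.apOfModel ℓ - W.apOfModel ℓ) := by
  obtain ⟨W', h0, h1, -, h3⟩ := switch_ss_two_val W hΔ hW h2 ha B hB
  exact ⟨W', h0, h1, h3⟩

end Fermat.Agent.SwA
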