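import Fermat.Agent.S52.Forms
import Mathlib

/-!
# The switch at the prime two, supersingular case: two-adic shape of the forms

With `c₄ = 16 a`, `c₆ = 8 b` and parameter `x / 16` the rescaled forms have integral coefficients.
-/

set_option autoImplicit false

namespace Fermat.Agent.SwA

open Fermat.Agent.S52

variable {R : Type*} [CommRing R]

/-- auxiliary polynomial -/
def H4a (a b x : R) : R := (8796093022208) * a ^ 1 + (5497558138880) * b ^ 1 * x ^ 1 + (104453604638720) * a ^ 2 * x ^ 2 + (19585050869760) * a ^ 1 * b ^ 1 * x ^ 3 + (3060164198400) * b ^ 2 * x ^ 4 + (-29377576304640) * a ^ 3 * x ^ 4 + (16647293239296) * a ^ 2 * b ^ 1 * x ^ 5 + (-2142114938880) * a ^ 1 * b ^ 2 * x ^ 6 + (220331822284800) * a ^ 4 * x ^ 6 + (-191260262400) * b ^ 3 * x ^ 7 + (17442935930880) * a ^ 3 * b ^ 1 * x ^ 7 + (2362064240640) * a ^ 2 * b ^ 2 * x ^ 8 + (-134264704204800)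 * a ^ 5 * x ^ 8 + (517996544000) * a ^ 1 * b ^ 3 * x ^ 9 + (-32447303516160) * a ^ 4 * b ^ 1 * x ^ 9 + (32374784000) * b ^ 4 * x ^ 10 + (-736591085568) * a ^ 3 * b ^ 2 * x ^ 10 + (-83915440128000) * a ^ 6 * x ^ 10 + (224681000960) * a ^ 2 * b ^ 3 * x ^ 11 + (-14335554355200) * a ^ 5 * b ^ 1 * x ^ 11 + (4856217600) * a ^ 1 * b ^ 4 * x ^ 12 + (59003043840) * a ^ 4 * b ^ 2 * x ^ 12 + (-23601217536000) * a ^ 7 * x ^ 12 + (233472000) * b ^ 5 * x ^ 13 + (-5939527680) * a ^ 3 * b ^ 3 * x ^ 13 + (-574901452800) * a ^ 6 * b ^ 1 * x ^ 13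

/-- auxiliary polynomial -/
def H4b (a b x : R) : R := (2299699200) * a ^ 2 * b ^ 4 * x ^ 14 + (-253536583680) * a ^ 5 * b ^ 2 * x ^ 14 + (6808043520000) * a ^ 8 * x ^ 14 + (116736000) * a ^ 1 * b ^ 5 * x ^ 15 + (-14119335936) * a ^ 4 * b ^ 3 * x ^ 15 + (425502720000) * a ^ 7 * b ^ 1 * x ^ 15 + (4560000) * b ^ 6 * x ^ 16 + (-610237440) * a ^ 3 * b ^ 4 * x ^ 16 + (22870771200) * a ^ 6 * b ^ 2 * x ^ 16 + (-159563520000) * a ^ 9 * x ^ 16 + (5654400) * a ^ 2 * b ^ 5 * x ^ 17 + (-715080960) * a ^ 5 * b ^ 3 * x ^ 17 + (22604832000) * a ^ 8 * b ^ 1 * x ^ 17 + (-304000) * a ^ 1 * b ^ 6 * x ^ 18 + (63324720) * a ^ 4 * b ^ 4 * x ^ 18 + (-4365835200) * a ^ 7 * b ^ 2 * x ^ 18 + (99727200000) * a ^ 10 * x ^ 18 + (-10000) * b ^ 7 * x ^ 19 + (1958400) * a ^ 3 * b ^ 5 * x ^ 19 + (-127775880) * a ^ 6 * b ^ 3 * x ^ 19 + (2777490000) * a ^ 9 * b ^ 1 * x ^ 19 + (-5500)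 * a ^ 2 * b ^ 6 * x ^ 20 + (1064448) * a ^ 5 * b ^ 4 * x ^ 20 + (1476225000) * a ^ 11 * x ^ 20

/-- auxiliary polynomial -/
def H4 (a b x : R) : R := H4a a b x + H4b a b x

/-- auxiliary polynomial -/
def H6a (a b x : R) : R := (2305843009213693952) * b ^ 1 + (138350580552821637120) * a ^ 2 * x ^ 1 + (62690106812997304320) * a ^ 1 * b ^ 1 * x ^ 2 + (13060438919374438400) * b ^ 2 * x ^ 3 + (334347236335985623040) * a ^ 3 * x ^ 3 + (246842295576176885760) * a ^ 2 * b ^ 1 * x ^ 4 + (13223694405866618880) * a ^ 1 * b ^ 2 * x ^ 5 + (1720843432016776003584) * a ^ 4 * x ^ 5 + (1377468167277772800) * b ^ 3 * x ^ 6 + (246107645886962073600) * a ^ 3 * b ^ 1 * x ^ 6 + (68873408363888640000) * a ^ 2 * b ^ 2 * x ^ 7 + (-2115791104938659020800) * a ^ 5 * x ^ 7 + (7920441961847193600) * a ^ 1 * b ^ 3 * x ^ 8 + (-300976794550193356800) * a ^ 4 * b ^ 1 * x ^ 8 + (550030691794944000)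 * b ^ 4 * x ^ 9 + (-46202578110775296000) * a ^ 3 * b ^ 2 * x ^ 9 + (1710815463758993817600) * a ^ 6 * x ^ 9 + (-7441915259985592320) * a ^ 2 * b ^ 3 * x ^ 10 + (542352263337486581760) * a ^ 5 * b ^ 1 * x ^ 10 + (-1567587471615590400) * a ^ 1 * b ^ 4 * x ^ 11 + (92941436146050662400) * a ^ 4 * b ^ 2 * x ^ 11 + (712839776566247424000) * a ^ 7 * x ^ 11 + (-81645180813312000) * b ^ 5 * x ^ 12 + (-3461755666484428800) * a ^ 3 * b ^ 3 * x ^ 12 + (567858561592747622400) * a ^ 6 * b ^ 1 * x ^ 12 + (-808287290051788800) * a ^ 2 * b ^ 4 * x ^ 13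

/-- auxiliary polynomial -/
def H6b (a b x : R) : R := (22485082795986124800) * a ^ 5 * b ^ 2 * x ^ 13 + (1904618778012942336000) * a ^ 8 * x ^ 13 + (-5777417107301990400) * a ^ 4 * b ^ 3 * x ^ 14 + (371003866133771059200) * a ^ 7 * b ^ 1 * x ^ 14 + (-333112337718312960) * a ^ 3 * b ^ 4 * x ^ 15 + (21360828656186818560) * a ^ 6 * b ^ 2 * x ^ 15 + (-39036602076364800) * a ^ 2 * b ^ 5 * x ^ 16 + (3981733411789209600) * a ^ 5 * b ^ 3 * x ^ 16 + (-94858943045566464000) * a ^ 8 * b ^ 1 * x ^ 16 + (-2870338387968000) * a ^ 1 * b ^ 6 * x ^ 17 + (245126898332467200) * a ^ 4 * b ^ 4 * x ^ 17 + (1301985492782284800) * a ^ 7 * b ^ 2 * x ^ 17 + (-334796269572587520000) * a ^ 10 * x ^ 17 + (-99664527360000) * b ^ 7 * x ^ 18 + (-2487626602905600) * a ^ 3 * b ^ 5 * x ^ 18 + (1455692113457971200) * a ^ 6 * b ^ 3 * x ^ 18 + (-56845616604512256000) * a ^ 9 * b ^ 1 * x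 ^ 18 + (-1098408001536000) * a ^ 2 * b ^ 6 * x ^ 19 + (132722936355225600) * a ^ 5 * b ^ 4 * x ^ 19 + (-3650974122088857600) * a ^ 8 * b ^ 2 * x ^ 19 + (-22026070366617600000) * a ^ 11 * x ^ 19 + (-27538882560000) * a ^ 1 * b ^ 7 * x ^ 20 + (1992760751554560) * a ^ 4 * b ^ 5 * x ^ 20 + (79458708939079680) * a ^ 7 * b ^ 3 * x ^ 20 + (-6028489571696640000) * a ^ 10 * b ^ 1 * x ^ 20 + (-819609600000) * b ^ 8 * x ^ 21

/-- auxiliary polynomial -/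
def H6c (a b x : R) : R := (82013415014400) * a ^ 3 * b ^ 6 * x ^ 21 + (-2774149005312000) * a ^ 6 * b ^ 4 * x ^ 21 + (201666646867968000) * a ^ 9 * b ^ 2 * x ^ 21 + (-9292248435916800000) * a ^ 12 * x ^ 21 + (-2286710784000) * a ^ 2 * b ^ 7 * x ^ 22 + (246433657651200) * a ^ 5 * b ^ 5 * x ^ 22 + (-3531795299942400) * a ^ 8 * b ^ 3 * x ^ 22 + (-183909083627520000) * a ^ 11 * b ^ 1 * x ^ 22 + (96215040000) * a ^ 1 * b ^ 8 * x ^ 23 + (-30337884979200) * a ^ 4 * b ^ 6 * x ^ 23 + (3192876859392000) * a ^ 7 * b ^ 4 * x ^ 23 + (-136865673105408000) * a ^ 10 * b ^ 2 * x ^ 23 + (2020054007808000000) * a ^ 13 * x ^ 23 + (2505600000) * b ^ 9 * x ^ 24 + (-711857664000) * a ^ 3 * b ^ 7 * x ^ 24 + (70492189593600) * a ^ 6 * b ^ 5 * x ^ 24 + (-2903964021043200) * a ^ 9 * b ^ 3 * x ^ 24 + (41689916697600000) * a ^ 12 * b ^ 1 * x ^ 24 + (-17789760000) * a ^ 2 * b ^ 8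 * x ^ 25 + (4454662542336) * a ^ 5 * b ^ 6 * x ^ 25 + (-422114425044480) * a ^ 8 * b ^ 4 * x ^ 25 + (17945076130560000) * a ^ 11 * b ^ 2 * x ^ 25 + (-288804596428800000) * a ^ 14 * x ^ 25 + (-1252800000) * a ^ 1 * b ^ 9 * x ^ 26 + (319928788800) * a ^ 4 * b ^ 7 * x ^ 26 + (-30679765079040) * a ^ 7 * b ^ 5 * x ^ 26

/-- auxiliary polynomial -/
def H6d (a b x : R) : R := (1309376460528000) * a ^ 10 * b ^ 3 * x ^ 26 + (-20984691902400000) * a ^ 13 * b ^ 1 * x ^ 26 + (-29000000) * b ^ 10 * x ^ 27 + (6831936000) * a ^ 3 * b ^ 8 * x ^ 27 + (-561732719040) * a ^ 6 * b ^ 6 * x ^ 27 + (15951544099200) * a ^ 9 * b ^ 4 * x ^ 27 + (129664518120000) * a ^ 12 * b ^ 2 * x ^ 27 + (-9863544960000000) * a ^ 15 * x ^ 27 + (-40890000) * a ^ 2 * b ^ 9 * x ^ 28 + (10465264800) * a ^ 5 * b ^ 7 * x ^ 28 + (-1004535333180) * a ^ 8 * b ^ 5 * x ^ 28 + (42859614402000) * a ^ 11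 * b ^ 3 * x ^ 28 + (-685824610500000) * a ^ 14 * b ^ 1 * x ^ 28 + (300000) * a ^ 1 * b ^ 10 * x ^ 29 + (-119569500) * a ^ 4 * b ^ 8 * x ^ 29 + (18320975280) * a ^ 7 * b ^ 6 * x ^ 29 + (-1365545194650) * a ^ 10 * b ^ 4 * x ^ 29 + (49873523512500) * a ^ 13 * b ^ 2 * x ^ 29 + (-717445350000000) * a ^ 16 * x ^ 29 + (6250) * b ^ 11 * x ^ 30 + (-2090000) * a ^ 3 * b ^ 9 * x ^ 30 + (279038925) * a ^ 6 * b ^ 7 * x ^ 30 + (-18595676088) * a ^ 9 * b ^ 5 * x ^ 30 + (-8220727968750) * a ^ 15 * b ^ 1 * x ^ 30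

/-- auxiliary polynomial -/
def H6 (a b x : R) : R := H6a a b x + H6b a b x + H6c a b x + H6d a b x

/-- auxiliary polynomial -/
def HD (a b x : R) : R := (4194304) + (-17301504) * a ^ 1 * x ^ 2 + (-3604480) * b ^ 1 * x ^ 3 + (-24330240) * a ^ 2 * x ^ 4 + (-1622016) * a ^ 1 * b ^ 1 * x ^ 5 + (-168960) * b ^ 2 * x ^ 6 + (6082560) * a ^ 3 * x ^ 6 + (-152064) * a ^ 2 * b ^ 1 * x ^ 7 + (63360) * a ^ 1 * b ^ 2 * x ^ 8 + (-4276800) * a ^ 4 * x ^ 8 + (4400) * b ^ 3 * x ^ 9 + (-285120) * a ^ 3 * b ^ 1 * x ^ 9 + (8316) * a ^ 2 * b ^ 2 * x ^ 10 + (-534600) * a ^ 5 * x ^ 10 + (120) * a ^ 1 * b ^ 3 * x ^ 11 + (-7695) * a ^ 4 * b ^ 1 * x ^ 11 + (-756) * a ^ 3 * b ^ 2 * x ^ 12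

/-- the rescaled form `C4p` -/
def G4 (a b x : R) : R := 2 * H4 a b x + (-137325375) * a ^ 8 * b ^ 2 * x ^ 20

/-- the rescaled form `C6p` -/
def G6 (a b x : R) : R := 4 * H6 a b x + (2474608269375) * a ^ 12 * b ^ 3 * x ^ 30

/-- twice the rescaled form `Dp` -/
def GD (a b x : R) : R := 4 * HD a b x + ((25) * b ^ 4 * x ^ 12 + (91125) * a ^ 6 * x ^ 12)

set_option maxHeartbeats 0 in
theorem idG4 (a b t : R) : 2 ^ 40 * C4p (16 * a) (8 * b) t = G4 a b (16 * t) := by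
  simp only [G4, H4, H4a, H4b, C4p, C4pc0, C4pc1, C4pc2, C4pc3, C4pc4, C4pc5, C4pc6, C4pc7, C4pc8, C4pc9, C4pc10, C4pc11, C4pc12, C4pc13, C4pc14, C4pc15, C4pc16, C4pc17, C4pc18, C4pc19, C4pc20]
  ring

set_option maxHeartbeats 0 in
theorem idG6 (a b t : R) : 2 ^ 60 * C6p (16 * a) (8 * b) t = G6 a b (16 * t) := by
  simp only [G6, H6, H6a, H6b, H6c, H6d, C6p, C6pc0, C6pc1, C6pc2, C6pc3, C6pc4, C6pc5, C6pc6, C6pc7, C6pc8, C6pc9, C6pc10, C6pc11, C6pc12, C6pc13, C6pc14, C6pc15, C6pc16, C6pc17, C6pc18, C6pc19, C6pc20, C6pc21, C6pc22, C6pc23, C6pc24, C6pc25, C6pc26, C6pc27, C6pc28, C6pc29, C6pc30]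
  ring

set_option maxHeartbeats 0 in
theorem idGD (a b t : R) : 2 ^ 24 * Dp (16 * a) (8 * b) t = GD a b (16 * t) := by
  simp only [GD, HD, Dp, Dpc0, Dpc2, Dpc3, Dpc4, Dpc5, Dpc6, Dpc7, Dpc8, Dpc9, Dpc10, Dpc11, Dpc12]
  ring

end Fermat.Agent.SwA
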