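import Fermat.Agent.SwA.Ident
import Fermat.Agent.S52_asm.Ident

/-!
# Parity and congruences of the rescaled forms
-/

set_option autoImplicit false

namespace Fermat.Agent.SwA

open Fermat.Agent.S52 Fermat.Agent.S52A

variable {R S : Type*} [CommRing R] [CommRing S]

theorem map_G4 (φ : R →+* S) (a b x : R) : φ (G4 a b x) = G4 (φ a) (φ b) (φ x) := by
  simp only [G4, H4, H4a, H4b, map_add, map_mul, map_pow, map_neg, map_ofNat]

theorem map_G6 (φ : R →+* S) (a b x : R) : φ (G6 a b x) = G6 (φ a) (φ b) (φ x) := by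
  simp only [G6, H6, H6a, H6b, H6c, H6d, map_add, map_mul, map_pow, map_neg, map_ofNat]

theorem map_GD (φ : R →+* S) (a b x : R) : φ (GD a b x) = GD (φ a) (φ b) (φ x) := by
  simp only [GD, HD, map_add, map_mul, map_pow, map_neg, map_ofNat]

lemma G4_zero (a b : R) : G4 a b 0 = 2 ^ 44 * a := by
  simp only [G4, H4, H4a, H4b]
  ring

lemma G6_zero (a b : R) : G6 a b 0 = 2 ^ 63 * b := by
  simp only [G6, H6, H6a, H6b, H6c, H6d]
  ring

lemma GD_zero (a b : R) : GD a b 0 = 2 ^ 24 := by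
  simp only [GD, HD]
  ring

lemma dvd_of_map {x y : ℤ} (h : Ideal.Quotient.mk (Ideal.span {x}) y = 0) : x ∣ y :=
  Ideal.mem_span_singleton.1 (Ideal.Quotient.eq_zero_iff_mem.1 h)

theorem dvd_G4 (a b x : ℤ) : x ∣ G4 a b x - 2 ^ 44 * a := by
  apply dvd_of_map
  have h0 : Ideal.Quotient.mk (Ideal.span {x}) x = 0 :=
    Ideal.Quotient.eq_zero_iff_mem.2 (Ideal.mem_span_singleton_self x)
  rw [map_sub, map_G4, h0, G4_zero, map_mul, map_pow, map_ofNat, sub_self]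

theorem dvd_G6 (a b x : ℤ) : x ∣ G6 a b x - 2 ^ 63 * b := by
  apply dvd_of_map
  have h0 : Ideal.Quotient.mk (Ideal.span {x}) x = 0 :=
    Ideal.Quotient.eq_zero_iff_mem.2 (Ideal.mem_span_singleton_self x)
  rw [map_sub, map_G6, h0, G6_zero, map_mul, map_pow, map_ofNat, sub_self]

theorem dvd_GD (a b x : ℤ) : x ∣ GD a b x - 2 ^ 24 := by
  apply dvd_of_map
  have h0 : Ideal.Quotient.mk (Ideal.span {x}) x = 0 :=
    Ideal.Quotient.eq_zero_iff_mem.2 (Ideal.mem_span_singleton_self x)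
  rw [map_sub, map_GD, h0, GD_zero, map_pow, map_ofNat, sub_self]

theorem vals {a b x : ℤ} (ha : Odd a) (hb : b % 4 = 1) (hx : Odd x) :
    (∃ d, GD a b x = 2 * d ∧ Odd d) ∧ Odd (G4 a b x) ∧ G6 a b x % 4 = 3 := by
  have hbo : Odd b := Int.odd_iff.2 (by omega)
  -- squares of odd integers
  have sq : ∀ z : ℤ, Odd z → ∃ w, z ^ 2 = 8 * w + 1 := by
    rintro z ⟨k, rfl⟩
    obtain ⟨m, hm⟩ := Int.even_mul_succ_self k
    exact ⟨m, by linear_combination 4 * hm⟩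
  have sqn : ∀ z : ℤ, Odd z → ∀ n : ℕ, ∃ w, z ^ (2 * n) = 8 * w + 1 := by
    intro z hz n
    have h1 : Odd (z ^ n) := hz.pow
    obtain ⟨w, hw⟩ := sq _ h1
    exact ⟨w, by rw [mul_comm, pow_mul, hw]⟩
  refine ⟨?_, ?_, ?_⟩
  · obtain ⟨a6, h6⟩ := sqn a ha 3
    obtain ⟨b4, h4⟩ := sqn b hbo 2
    obtain ⟨x12, h12⟩ := sqn x hx 6
    norm_num at h6 h4 h12
    refine ⟨2 * HD a b x + (364500 * a6 + 100 * b4 + 45575) * (8 * x12 + 1), ?_, ?_⟩
    · simp only [GD]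
      rw [h6, h4, h12]
      ring
    · refine ⟨HD a b x + (182250 * a6 + 50 * b4) * (8 * x12 + 1) + 45575 * 4 * x12 + 22787, ?_⟩
      ring
  · simp only [G4]
    have h1 : Odd (a ^ 8 * b ^ 2 * x ^ 20) := ((ha.pow).mul hbo.pow).mul hx.pow
    obtain ⟨k, hk⟩ := h1
    exact ⟨H4 a b x - 137325375 * k - 68662688, by linear_combination (-137325375) * hk⟩
  · simp only [G6]
    obtain ⟨a12, h12⟩ := sqn a ha 6
    obtain ⟨b2, h2⟩ := sqn b hbo 1
    obtain ⟨x30, h30⟩ := sqn x hx 15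
    norm_num at h12 h2 h30
    obtain ⟨β, hβ⟩ : ∃ β, b = 4 * β + 1 := ⟨b / 4, by omega⟩
    have h3 : b ^ 3 = 4 * (2 * b2 * b + β) + 1 := by
      have : b ^ 3 = b ^ 2 * b := by ring
      rw [this, h2]
      linear_combination hβ
    have : ∃ r, 4 * H6 a b x + 2474608269375 * a ^ 12 * b ^ 3 * x ^ 30 = 4 * r + 3 := by
      rw [h12, h3, h30]
      refine ⟨H6 a b x + 2474608269375 * (((8 * a12 + 1) * (2 * b2 * b + β) + 2 * a12) * (8 * x30 + 1)
        + 2 * x30) + 618652067343, ?_⟩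
      ring
    obtain ⟨r, hr⟩ := this
    omega

theorem rel {a b x d : ℤ} (hd : GD a b x = 2 * d) :
    G4 a b x ^ 3 - G6 a b x ^ 2 = 2 ^ 11 * (64 * a ^ 3 - b ^ 2) * d ^ 5 := by
  have h4 := idG4 (a : ℚ) (b : ℚ) ((x : ℚ) / 16)
  have h6 := idG6 (a : ℚ) (b : ℚ) ((x : ℚ) / 16)
  have hD := idGD (a : ℚ) (b : ℚ) ((x : ℚ) / 16)
  have hr := forms_rel (16 * (a : ℚ)) (8 * (b : ℚ)) ((x : ℚ) / 16)
  have hx : (16 : ℚ) * ((x : ℚ) / 16) = x := by ring
  rw [hx] at h4 h6 hD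
  have e4 := map_G4 (Int.castRingHom ℚ) a b x
  have e6 := map_G6 (Int.castRingHom ℚ) a b x
  have eD := map_GD (Int.castRingHom ℚ) a b x
  simp only [eq_intCast] at e4 e6 eD
  have hd' : (GD (a : ℚ) b x) = 2 * (d : ℚ) := by
    rw [← eD, hd]; push_cast; ring
  have hDp : Dp (16 * (a : ℚ)) (8 * (b : ℚ)) ((x : ℚ) / 16) = d / 2 ^ 23 := by
    rw [hd'] at hD
    have : Dp (16 * (a : ℚ)) (8 * (b : ℚ)) ((x : ℚ) / 16) = 2 * (d : ℚ) / 2 ^ 24 := by
      rw [← hD]; ring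
    rw [this]; ring
  have : ((G4 a b x ^ 3 - G6 a b x ^ 2 : ℤ) : ℚ) =
      ((2 ^ 11 * (64 * a ^ 3 - b ^ 2) * d ^ 5 : ℤ) : ℚ) := by
    push_cast
    rw [e4, e6, ← h4, ← h6]
    rw [hDp] at hr
    linear_combination 2 ^ 120 * hr
  exact_mod_cast this

end Fermat.Agent.SwA
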